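/-
P-ES / Q-EIG (helper94): the Hecke eigenvector in `k ⊗ J₀(N)[p]` — INTERFACES.

Definitions and statement-`Prop`s only.

* `torsionEnd n T`     : restriction of an additive endomorphism of `Pic⁰` to the `n`-torsion, as a
                         `ZMod n`-linear endomorphism;
* `heckeTors L N n ℓ`  : the prelude Hecke operator `heckeOperatorAlong L N ℓ` on the `n`-torsion
                         of `Pic⁰` of the function field of `X₀(N)` over `L` (and `0` for `ℓ = 0`);
* `HeckeDescentStatement N` : (interface issue C4) the descent map of ES-B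
                         `J₀(N)(ℚ̄) → Pic⁰(ℂ(X₀(N)))` is injective, onto the torsion and commutes
                         with the Hecke operators `T_ℓ`, `ℓ ∤ N`;
* `EigenTensorStatement` : pure algebra (Mathlib only): an eigenvector in `Hom(Γ, k)` whose
                         coordinates come from a `𝔽_p`-module `P ↪ Hom(Γ, 𝔽_p)` gives an eigenvector
                         in `k ⊗ P`;
* `ComplexEigenStatement` : the eigensystem of a normalised eigenform occurs in
                         `k ⊗ Pic⁰(ℂ(X₀(N)))[p]`;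
* `QEigStatement`      : the same in `k ⊗ J₀(N)(ℚ̄)[p]` (the shape of
                         `Fermat.Agent.H22.ES.TorsionHeckeDatum.OccursVec` for `T = heckeTors`),
                         together with the finiteness of `J₀(N)(ℚ̄)[p]`.
-/
import Fermat.Agent.H22.ES.Interfaces
import Fermat.Agent.H21.EsC.Interfaces
import Fermat.Agent.H29.ESB.Interfaces2
import Fermat.Prelude.Def_ModularCurve_HeckeModule

set_option autoImplicit false

noncomputable section

open AlgebraicCurve ModularCurve CongruenceSubgroup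
open scoped MatrixGroups TensorProduct

namespace Fermat.Agent.H94.QEig

/-- The function field of `X₀(N)` over `ℂ`. -/
abbrev FC (N : ℕ) : IntermediateField ℂ (LaurentSeries ℂ) :=
  laurentBaseChange ℂ (modularFunctionFieldFull N)

/-- An additive endomorphism of `Pic⁰` preserves the `n`-torsion. -/
theorem map_mem_torsion {K F : Type*} [Field K] [Field F] [Algebra K F] (n : ℕ)
    (T : Pic0 K F →+ Pic0 K F) {x : Pic0 K F} (hx : x ∈ Pic0.torsion K F n) :
    T x ∈ Pic0.torsion K F n := by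
  rw [Pic0.mem_torsion] at hx ⊢
  rw [← map_zsmul, hx, map_zero]

/-- Restriction of an additive endomorphism of `Pic⁰` to the `n`-torsion. -/
def torsionEnd {K F : Type*} [Field K] [Field F] [Algebra K F] (n : ℕ)
    (T : Pic0 K F →+ Pic0 K F) : Module.End (ZMod n) ↥(Pic0.torsion K F n) :=
  AddMonoidHom.toZModLinearMap n
    ((T.comp (Pic0.torsion K F n).subtype).codRestrict (Pic0.torsion K F n)
      (fun x => map_mem_torsion n T x.2))

@[simp]
theorem coe_torsionEnd_apply {K F : Type*} [Field K] [Field F] [Algebra K F] (n : ℕ)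
    (T : Pic0 K F →+ Pic0 K F) (x : ↥(Pic0.torsion K F n)) :
    ((torsionEnd n T x : ↥(Pic0.torsion K F n)) : Pic0 K F) = T (x : Pic0 K F) := rfl

/-- The prelude Hecke operator `T_ℓ` on the `n`-torsion of `Pic⁰` of the function field of
`X₀(N)` over `L` (by convention `0` for `ℓ = 0`). -/
def heckeTors (L : Type) [Field L] [Algebra ℚ L] (N n ℓ : ℕ) [NeZero N] :
    Module.End (ZMod n)
      ↥(Pic0.torsion L ↥(laurentBaseChange L (modularFunctionFieldFull N)) n) :=
  if h : ℓ = 0 then 0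
  else
    haveI : NeZero ℓ := ⟨h⟩
    torsionEnd n (heckeOperatorAlong L N ℓ)

theorem coe_heckeTors_apply (L : Type) [Field L] [Algebra ℚ L] (N n ℓ : ℕ) [NeZero N]
    [NeZero ℓ] (x : ↥(Pic0.torsion L ↥(laurentBaseChange L (modularFunctionFieldFull N)) n)) :
    ((heckeTors L N n ℓ x :
        ↥(Pic0.torsion L ↥(laurentBaseChange L (modularFunctionFieldFull N)) n)) :
      Pic0 L ↥(laurentBaseChange L (modularFunctionFieldFull N)))
      = heckeOperatorAlong L N ℓ
          (x : Pic0 L ↥(laurentBaseChange L (modularFunctionFieldFull N))) := by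
  rw [heckeTors, dif_neg (NeZero.ne ℓ)]
  rfl

/-! ### The statements -/

/-- **Q-EIG-C** (interface issue C4): the descent map `J₀(N)(ℚ̄) → Pic⁰(ℂ(X₀(N)))` of ES-B is
injective, onto the torsion, and commutes with the prelude Hecke operators `T_ℓ`, `ℓ ∤ N`. -/
def HeckeDescentStatement (N : ℕ) [NeZero N] : Prop :=
  ∀ _ι : AlgebraicClosure ℚ →+* ℂ,
    ∃ φ : JZero N →+ Pic0 ℂ ↥(FC N),
      Function.Injective φ ∧
      (∀ m : ℕ, 0 < m → ∀ z : Pic0 ℂ ↥(FC N), z ∈ Pic0.torsion ℂ ↥(FC N) m →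
        ∃ z₀ : JZero N, z₀ ∈ Pic0.torsion (AlgebraicClosure ℚ) ↥(modularFunctionFieldBar N) m ∧
          φ z₀ = z) ∧
      ∀ (ℓ : ℕ) [NeZero ℓ], ℓ.Prime → ¬ ℓ ∣ N → ∀ x : JZero N,
        φ (heckeOperatorAlong (AlgebraicClosure ℚ) N ℓ x) = heckeOperatorAlong ℂ N ℓ (φ x)

/-- **Q-EIG-A** (pure algebra, Mathlib only).  `Γ` a finitely generated group, `P` a
`𝔽_p`-vector space with an injective linear map `κ` into `Hom(Γ, 𝔽_p)`, operators `T i` on `P`
and "natural" operators `S₀ i` on `Hom(Γ, 𝔽_p)`, `S₁ i` on `Hom(Γ, k)` compatible with `κ` and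
with the coefficient maps `𝔽_p → k`.  If `ψ ∈ Hom(Γ, k)` is a nonzero simultaneous eigenvector
of the `S₁ i` all of whose `𝔽_p`-coordinates lie in the image of `κ`, then `k ⊗ P` contains a
nonzero simultaneous eigenvector of the `T i` with the same eigenvalues. -/
def EigenTensorStatement : Prop :=
  ∀ (p : ℕ) [Fact p.Prime] (k : Type) [Field k] [Algebra (ZMod p) k]
    (Γ : Type) [Group Γ] [Group.FG Γ]
    (P : Type) [AddCommGroup P] [Module (ZMod p) P]
    (κ : P →+ (Additive Γ →+ ZMod p)), Function.Injective κ →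
    ∀ (ι : Type) (T : ι → Module.End (ZMod p) P)
      (S₀ : ι → ((Additive Γ →+ ZMod p) →+ (Additive Γ →+ ZMod p)))
      (S₁ : ι → ((Additive Γ →+ k) →+ (Additive Γ →+ k))),
      (∀ (i : ι) (u : ZMod p →+ k) (θ : Additive Γ →+ ZMod p),
        S₁ i (u.comp θ) = u.comp (S₀ i θ)) →
      (∀ (i : ι) (x : P), κ (T i x) = S₀ i (κ x)) →
      ∀ ψ : Additive Γ →+ k, ψ ≠ 0 →
        (∀ lam : k →ₗ[ZMod p] ZMod p, lam.toAddMonoidHom.comp ψ ∈ Set.range κ) →
        ∀ c : ι → k, (∀ i, S₁ i ψ = c i • ψ) →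
          ∃ v : k ⊗[ZMod p] P, v ≠ 0 ∧ ∀ i, (T i).baseChange k v = c i • v

/-- **Q-EIG-B**: the eigensystem of a normalised eigenform, reduced along `φ : ℤ̄ → k`, occurs in
`k ⊗ Pic⁰(ℂ(X₀(N)))[p]` for the prelude Hecke operators `T_ℓ`, `ℓ ∤ N`. -/
def ComplexEigenStatement : Prop :=
  ∀ (N : ℕ) [NeZero N] (g : CuspForm (Gamma0 N) 2), g.IsNormalizedEigenform →
    ∀ (p : ℕ), p.Prime → ∀ (k : Type) [Field k] [Algebra (ZMod p) k]
      (φ : integralClosure ℤ ℂ →+* k),
      ∃ v : k ⊗[ZMod p] ↥(Pic0.torsion ℂ ↥(FC N) p), v ≠ 0 ∧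
        ∀ ℓ : ℕ, ℓ.Prime → ¬ ℓ ∣ N →
          ∃ a : integralClosure ℤ ℂ, (a : ℂ) = ModularFormClass.qCoeff g ℓ ∧
            (heckeTors ℂ N p ℓ).baseChange k v = φ a • v

/-- **Q-EIG** (main): `J₀(N)(ℚ̄)[p]` is finite and the eigensystem of every normalised eigenform,
reduced along any `φ : ℤ̄ → k`, occurs in `k ⊗ J₀(N)(ℚ̄)[p]` for the prelude Hecke operators
`T_ℓ` (`ℓ ∤ N`) restricted to torsion. -/
def QEigStatement : Prop :=
  ∀ (N : ℕ) [NeZero N] (p : ℕ), p.Prime →
    Finite (Fermat.Agent.H22.ES.JTors N p) ∧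
    ∀ (g : CuspForm (Gamma0 N) 2), g.IsNormalizedEigenform →
      ∀ (k : Type) [Field k] [Algebra (ZMod p) k] (φ : integralClosure ℤ ℂ →+* k),
        ∃ v : k ⊗[ZMod p] (Fermat.Agent.H22.ES.JTors N p), v ≠ 0 ∧
          ∀ ℓ : ℕ, ℓ.Prime → ¬ ℓ ∣ N →
            ∃ a : integralClosure ℤ ℂ, (a : ℂ) = ModularFormClass.qCoeff g ℓ ∧
              (heckeTors (AlgebraicClosure ℚ) N p ℓ).baseChange k v = φ a • v

/-- The shape consumed by ES-G: for a torsion Hecke datum whose operators are the prelude Hecke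
operators on torsion, the eigensystem of every normalised eigenform occurs. -/
theorem occursVec_of_qEig (h : QEigStatement) (N : ℕ) [NeZero N] (p : ℕ) (hp : p.Prime)
    (D : Fermat.Agent.H22.ES.TorsionHeckeDatum N p)
    (hD : ∀ ℓ : ℕ, ℓ.Prime → ¬ ℓ ∣ N * p → D.T ℓ = heckeTors (AlgebraicClosure ℚ) N p ℓ)
    (g : CuspForm (Gamma0 N) 2) (hg : g.IsNormalizedEigenform) : D.OccursVec g := by
  intro k _ _ φ
  obtain ⟨v, hv, hev⟩ := (h N p hp).2 g hg k φ
  refine ⟨v, hv, fun ℓ hℓ hℓNp => ?_⟩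
  obtain ⟨a, ha, hav⟩ := hev ℓ hℓ (fun hdiv => hℓNp (Dvd.dvd.mul_right hdiv p))
  exact ⟨a, ha, by rw [hD ℓ hℓ hℓNp]; exact hav⟩

end Fermat.Agent.H94.QEig

end
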