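/-
P-ES / Q-EIG-B (helper94): the eigensystem of a normalised eigenform occurs in
`k ⊗ Pic⁰(ℂ(X₀(N)))[p]`.

`complexEigen_of_parts : EigenTensorStatement → (∀ N, KummerHeckeStatement N) →
    CohEigenvectorStatement → ComplexEigenStatement`,
using the unconditional ES-A bijection `Fermat.Agent.H23.EsA.exists_torsion_equiv`.
-/
import Fermat.Agent.H94.QEig.Interfaces
import Fermat.Agent.H23.EsA.Unconditional
import Fermat.Agent.H50.EsAFin

set_option autoImplicit false

noncomputable section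

open AlgebraicCurve ModularCurve CongruenceSubgroup
open scoped MatrixGroups TensorProduct

namespace Fermat.Agent.H94.QEig

/-! ### Elements of finite order -/

/-- An element of `SL(2,ℤ)` of trace `0`, `±1` has order dividing `12`. -/
theorem sl2_pow_twelve_of_abs_trace_lt_two (γ : SL(2, ℤ)) (h : |(γ 0 0 + γ 1 1 : ℤ)| < 2) :
    γ ^ 12 = 1 := by
  have hsq := Fermat.Agent.H21.mat_mul_self_of_det_one (γ : Matrix (Fin 2) (Fin 2) ℤ) γ.2
  have htr : (γ : Matrix (Fin 2) (Fin 2) ℤ).trace = γ 0 0 + γ 1 1 := by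
    rw [Matrix.trace_fin_two]
  rw [htr] at hsq
  set M : Matrix (Fin 2) (Fin 2) ℤ := (γ : Matrix (Fin 2) (Fin 2) ℤ) with hM
  set t : ℤ := γ 0 0 + γ 1 1 with ht
  have ht3 : t = 0 ∨ t = 1 ∨ t = -1 := by
    rw [abs_lt] at h
    omega
  have key : M ^ 12 = 1 := by
    rcases ht3 with h0 | h1 | h1
    · rw [h0, zero_smul, zero_sub] at hsq
      have h4 : M ^ 4 = 1 := by
        have : M ^ 4 = (M * M) * (M * M) := by noncomm_ring
        rw [this, hsq]; simp
      have : M ^ 12 = (M ^ 4) ^ 3 := by rw [← pow_mul]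
      rw [this, h4, one_pow]
    · rw [h1, one_smul] at hsq
      have h3 : M ^ 3 = -1 := by
        have : M ^ 3 = (M * M) * M := by noncomm_ring
        rw [this, hsq, sub_mul, hsq, one_mul]; abel
      have : M ^ 12 = (M ^ 3) ^ 4 := by rw [← pow_mul]
      rw [this, h3]; exact Even.neg_one_pow ⟨2, rfl⟩
    · rw [h1] at hsq
      have hsq' : M * M = -M - 1 := by rw [hsq]; simp
      have h3 : M ^ 3 = 1 := by
        have : M ^ 3 = (M * M) * M := by noncomm_ring
        rw [this, hsq', sub_mul, neg_mul, hsq', one_mul]; abel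
      have : M ^ 12 = (M ^ 3) ^ 4 := by rw [← pow_mul]
      rw [this, h3, one_pow]
  apply Subtype.ext
  simpa using key

/-- An element of `Γ₀(N)` of trace `0`, `±1` has finite order. -/
theorem gamma0_isOfFinOrder_of_abs_trace_lt_two {N : ℕ} (γ : ↥(Gamma0 N))
    (h : |((γ : SL(2, ℤ)) 0 0 + (γ : SL(2, ℤ)) 1 1 : ℤ)| < 2) : IsOfFinOrder γ := by
  rw [isOfFinOrder_iff_pow_eq_one]
  refine ⟨12, by norm_num, Subtype.ext ?_⟩
  rw [Subgroup.coe_pow, Subgroup.coe_one]
  exact sl2_pow_twelve_of_abs_trace_lt_two _ h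

/-- A homomorphism that is parabolic and kills the elements of finite order kills all elements
of `Γ₀(N)` with `trace ^ 2 ≤ 4`. -/
theorem hom_eq_zero_of_trace_sq_le {N : ℕ} {A : Type*} [AddCommGroup A]
    (ψ : Additive ↥(Gamma0 N) →+ A) (hpar : Period.IsParabolicHom (Gamma0 N) ψ)
    (hfin : ∀ γ : ↥(Gamma0 N), IsOfFinOrder γ → ψ (Additive.ofMul γ) = 0)
    (γ : ↥(Gamma0 N))
    (h : ((γ : SL(2, ℤ)) : Matrix (Fin 2) (Fin 2) ℤ).trace ^ 2 ≤ 4) :
    ψ (Additive.ofMul γ) = 0 := by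
  rcases h.lt_or_eq with hlt | heq
  · apply hfin
    apply gamma0_isOfFinOrder_of_abs_trace_lt_two
    rw [Matrix.trace_fin_two] at hlt
    have h1 : ((γ : SL(2, ℤ)) 0 0 + (γ : SL(2, ℤ)) 1 1 : ℤ) ^ 2 < 2 ^ 2 := by
      simpa using hlt
    exact abs_lt_of_sq_lt_sq h1 (by norm_num)
  · exact hpar γ heq

/-! ### Lifting homomorphisms along an injective homomorphism -/

/-- A homomorphism with values in the range of an injective homomorphism `E` factors through
`E`. -/
theorem exists_lift_of_range {G A B : Type*} [AddGroup G] [AddCommGroup A] [AddCommGroup B]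
    (E : A →+ B) (hE : Function.Injective E) (f : G →+ B) (hf : ∀ g, f g ∈ Set.range E) :
    ∃ θ : G →+ A, E.comp θ = f := by
  choose θ hθ using hf
  refine ⟨AddMonoidHom.mk' θ (fun a b => hE ?_), AddMonoidHom.ext fun g => hθ g⟩
  rw [map_add, hθ, hθ, hθ, map_add]

theorem comp_injective_of_injective {G A B : Type*} [AddGroup G] [AddCommGroup A]
    [AddCommGroup B] (E : A →+ B) (hE : Function.Injective E) :
    Function.Injective (fun θ : G →+ A => E.comp θ) := by
  intro θ θ' h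
  ext g
  exact hE (DFunLike.congr_fun h g)

/-! ### The exponential `𝔽_p → ℂˣ` -/

section Exp

variable (p : ℕ) [Fact p.Prime]

/-- A primitive `p`-th root of unity in `ℂˣ`. -/
def zetaU : ℂˣ :=
  ((Complex.isPrimitiveRoot_exp p (Fact.out : p.Prime).ne_zero).isUnit
    (Fact.out : p.Prime).ne_zero).unit

theorem zetaU_prim : IsPrimitiveRoot (zetaU p) p := by
  rw [← IsPrimitiveRoot.coe_units_iff]
  exact Complex.isPrimitiveRoot_exp p (Fact.out : p.Prime).ne_zero

/-- The exponential `a ↦ ζ ^ a` from `𝔽_p` to `ℂˣ`, additively. -/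
def expHom : ZMod p →+ Additive ℂˣ :=
  (MonoidHom.toAdditive (Subgroup.zpowers (zetaU p)).subtype).comp
    (zetaU_prim p).zmodEquivZPowers.toAddMonoidHom

theorem expHom_injective : Function.Injective (expHom p) := by
  intro a b h
  have h1 : (zetaU_prim p).zmodEquivZPowers a = (zetaU_prim p).zmodEquivZPowers b := by
    apply Additive.toMul.injective
    apply Subtype.ext
    exact congrArg Additive.toMul h
  exact (zetaU_prim p).zmodEquivZPowers.injective h1

theorem mem_range_expHom {u : Additive ℂˣ} (hu : p • u = 0) : u ∈ Set.range (expHom p) := by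
  have hp0 : NeZero p := ⟨(Fact.out : p.Prime).ne_zero⟩
  have h1 : (Additive.toMul u) ^ p = 1 := by
    have := congrArg Additive.toMul hu
    simpa using this
  have h2 : Additive.toMul u ∈ Subgroup.zpowers (zetaU p) := by
    rw [(zetaU_prim p).zpowers_eq]
    exact (mem_rootsOfUnity _ _).mpr h1
  refine ⟨(zetaU_prim p).zmodEquivZPowers.symm (Additive.ofMul ⟨Additive.toMul u, h2⟩), ?_⟩
  show (MonoidHom.toAdditive (Subgroup.zpowers (zetaU p)).subtype)
    ((zetaU_prim p).zmodEquivZPowers ((zetaU_prim p).zmodEquivZPowers.symm _)) = u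
  rw [AddEquiv.apply_symm_apply]
  rfl

theorem nsmul_expHom (a : ZMod p) : p • expHom p a = 0 := by
  rw [← map_nsmul]
  have : p • a = 0 := by
    rw [nsmul_eq_mul]
    simp
  rw [this, map_zero]

end Exp

/-! ### The logarithm of the Kummer character -/

section Kappa

variable (N : ℕ) (p : ℕ) [Fact p.Prime]

/-- The character attached to a homomorphism `Γ₀(N) → 𝔽_p`. -/
def expChar (θ : Additive ↥(Gamma0 N) →+ ZMod p) : ↥(Gamma0 N) →* ℂˣ :=
  MonoidHom.toAdditive.symm ((expHom p).comp θ)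

theorem toAdditive_expChar (θ : Additive ↥(Gamma0 N) →+ ZMod p) :
    MonoidHom.toAdditive (expChar N p θ) = (expHom p).comp θ :=
  MonoidHom.toAdditive.apply_symm_apply _

theorem expChar_injective : Function.Injective (expChar N p) := by
  intro θ θ' h
  have h1 : (expHom p).comp θ = (expHom p).comp θ' := by
    rw [← toAdditive_expChar, ← toAdditive_expChar, h]
  exact comp_injective_of_injective (expHom p) (expHom_injective p) h1

theorem expChar_apply (θ : Additive ↥(Gamma0 N) →+ ZMod p) (γ : ↥(Gamma0 N)) :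
    expChar N p θ γ = Additive.toMul (expHom p (θ (Additive.ofMul γ))) := rfl

theorem expChar_pow (θ : Additive ↥(Gamma0 N) →+ ZMod p) : expChar N p θ ^ p = 1 := by
  ext γ
  have h1 := nsmul_expHom p (θ (Additive.ofMul γ))
  have h2 : Additive.toMul (expHom p (θ (Additive.ofMul γ))) ^ p = 1 := by
    have := congrArg Additive.toMul h1
    simpa using this
  have h3 : (expChar N p θ γ) ^ p = 1 := h2
  simpa using congrArg Units.val h3

theorem expChar_add (θ θ' : Additive ↥(Gamma0 N) →+ ZMod p) :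
    expChar N p (θ + θ') = expChar N p θ * expChar N p θ' := by
  apply MonoidHom.toAdditive.injective
  rw [toAdditive_expChar, AddMonoidHom.comp_add, ← toAdditive_expChar, ← toAdditive_expChar]
  rfl

/-- Every character of exponent `p` is of the form `expChar θ`. -/
theorem exists_expChar_eq (χ : ↥(Gamma0 N) →* ℂˣ) (hχ : χ ^ p = 1) :
    ∃ θ : Additive ↥(Gamma0 N) →+ ZMod p, expChar N p θ = χ := by
  have hrange : ∀ γ : Additive ↥(Gamma0 N),
      MonoidHom.toAdditive χ γ ∈ Set.range (expHom p) := by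
    intro γ
    apply mem_range_expHom
    have h1 := DFunLike.congr_fun hχ (Additive.toMul γ)
    apply Additive.toMul.injective
    simpa using h1
  obtain ⟨θ, hθ⟩ := exists_lift_of_range (expHom p) (expHom_injective p)
    (MonoidHom.toAdditive χ) hrange
  refine ⟨θ, ?_⟩
  apply MonoidHom.toAdditive.injective
  rw [toAdditive_expChar, hθ]

/-- **ES-A in logarithmic form**: an injective additive map `κ` from `Pic⁰(FC N)[p]` to
`Hom(Γ₀(N), 𝔽_p)` such that `x` and `ζ ^ κ x` are related by `TorsionCharRel`, whose image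
contains all homomorphisms killing the elements with `trace ^ 2 ≤ 4`. -/
theorem exists_kappa [NeZero N] :
    ∃ κ : ↥(Pic0.torsion ℂ ↥(FC N) p) →+ (Additive ↥(Gamma0 N) →+ ZMod p),
      Function.Injective κ ∧
      (∀ x : ↥(Pic0.torsion ℂ ↥(FC N) p),
        Fermat.Agent.H23.EsA.TorsionCharRel N p (x : Pic0 ℂ ↥(FC N)) (expChar N p (κ x))) ∧
      (∀ θ : Additive ↥(Gamma0 N) →+ ZMod p,
        (∀ γ : ↥(Gamma0 N), ((γ : SL(2, ℤ)) : Matrix (Fin 2) (Fin 2) ℤ).trace ^ 2 ≤ 4 →
          θ (Additive.ofMul γ) = 0) → θ ∈ Set.range κ) := by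
  have hp : p.Prime := Fact.out
  obtain ⟨e, he_rel, he_mul⟩ := Fermat.Agent.H23.EsA.exists_torsion_equiv N hp.pos
  choose κf hκf using fun x : ↥(Pic0.torsion ℂ ↥(FC N) p) =>
    exists_expChar_eq N p ((e x : ↥(Fermat.Agent.H94.EsA.kummerChars N p)) :
      ↥(Gamma0 N) →* ℂˣ) (e x).2.2
  have hadd : ∀ x y, κf (x + y) = κf x + κf y := by
    intro x y
    apply expChar_injective N p
    rw [expChar_add, hκf, hκf, hκf, he_mul]
    rfl
  refine ⟨AddMonoidHom.mk' κf hadd, ?_, ?_, ?_⟩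
  · intro x y hxy
    have h1 : κf x = κf y := hxy
    apply e.injective
    apply Subtype.ext
    rw [← hκf x, ← hκf y, h1]
  · intro x
    show Fermat.Agent.H23.EsA.TorsionCharRel N p (x : Pic0 ℂ ↥(FC N)) (expChar N p (κf x))
    rw [hκf]
    exact he_rel x
  · intro θ hθ
    have hmem : expChar N p θ ∈ Fermat.Agent.H94.EsA.kummerChars N p := by
      refine ⟨fun γ hγ => ?_, expChar_pow N p θ⟩
      rw [expChar_apply, hθ γ hγ, map_zero]
      rfl
    refine ⟨e.symm ⟨expChar N p θ, hmem⟩, ?_⟩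
    show κf (e.symm ⟨expChar N p θ, hmem⟩) = θ
    apply expChar_injective N p
    rw [hκf, Equiv.apply_symm_apply]

end Kappa

/-! ### The main theorem -/

/-- **Q-EIG-B**. -/
theorem complexEigen_of_parts (hA : EigenTensorStatement)
    (hC2 : ∀ (N : ℕ) [NeZero N], Fermat.Agent.H21.EsC.KummerHeckeStatement N)
    (hC3 : Fermat.Agent.H21.EsC.CohEigenvectorStatement) : ComplexEigenStatement := by
  intro N _ g hg p hp k _ _ φ
  have : Fact p.Prime := ⟨hp⟩
  have : CharP k p := charP_of_injective_algebraMap (algebraMap (ZMod p) k).injective p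
  have : Group.FG ↥(Gamma0 N) := Fermat.Agent.H50.gamma0_fg N
  obtain ⟨ψ, hψ0, hψpar, hψfin, hψeig⟩ := hC3 N g hg p hp k φ
  obtain ⟨-, huniq, -, -, -, -⟩ := Fermat.Agent.H23.EsA.torsionCharStatement N p hp.pos
  obtain ⟨κ, hκinj, hκrel, hκsurj⟩ := exists_kappa N p
  -- the index set
  let ι : Type := {ℓ : ℕ // ℓ.Prime ∧ ¬ ℓ ∣ N}
  have hT : ∀ (i : ι) (x : ↥(Pic0.torsion ℂ ↥(FC N) p)),
      κ (heckeTors ℂ N p i.1 x) = Fermat.Agent.H21.cohT N i.1 i.2.1 i.2.2 (ZMod p) (κ x) := by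
    intro i x
    have : NeZero i.1 := ⟨i.2.1.ne_zero⟩
    have h1 := hC2 N i.1 i.2.1 i.2.2 p hp.pos _ _ (hκrel x)
    have h2 := hκrel (heckeTors ℂ N p i.1 x)
    rw [coe_heckeTors_apply ℂ N p i.1 x] at h2
    have h4 : expChar N p (κ (heckeTors ℂ N p i.1 x))
        = Fermat.Agent.H21.EsC.cohTChar N i.1 i.2.1 i.2.2 (expChar N p (κ x)) :=
      huniq _ _ _ h2 h1
    apply expChar_injective N p
    rw [h4]
    apply MonoidHom.toAdditive.injective
    rw [toAdditive_expChar, ← Fermat.Agent.H21.cohT_comp i.2.1 i.2.2 (expHom p) (κ x),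
      ← toAdditive_expChar]
    exact MonoidHom.toAdditive.apply_symm_apply _
  have hrange : ∀ lam : k →ₗ[ZMod p] ZMod p, lam.toAddMonoidHom.comp ψ ∈ Set.range κ := by
    intro lam
    apply hκsurj
    intro γ hγ
    have h1 : ψ (Additive.ofMul γ) = 0 := hom_eq_zero_of_trace_sq_le ψ hψpar hψfin γ hγ
    rw [AddMonoidHom.comp_apply, h1, map_zero]
  -- eigenvalues
  choose a ha1 ha2 using fun i : ι => hψeig i.1 i.2.1 i.2.2
  obtain ⟨v, hv0, hv⟩ := hA p k ↥(Gamma0 N) ↥(Pic0.torsion ℂ ↥(FC N) p) κ hκinj ι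
    (fun i => heckeTors ℂ N p i.1)
    (fun i => Fermat.Agent.H21.cohT N i.1 i.2.1 i.2.2 (ZMod p))
    (fun i => Fermat.Agent.H21.cohT N i.1 i.2.1 i.2.2 k)
    (fun i u θ => Fermat.Agent.H21.cohT_comp i.2.1 i.2.2 u θ) hT ψ hψ0 hrange
    (fun i => φ (a i)) ha2
  exact ⟨v, hv0, fun ℓ hℓ hℓN => ⟨a ⟨ℓ, hℓ, hℓN⟩, ha1 ⟨ℓ, hℓ, hℓN⟩, hv ⟨ℓ, hℓ, hℓN⟩⟩⟩

end Fermat.Agent.H94.QEig

end
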