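/-
P-ES / Q-EIG-D (helper94): the eigensystem of a normalised eigenform occurs in
`k ⊗ J₀(N)(ℚ̄)[p]`, from the complex statement and the Hecke-equivariant descent.

`qEig_of_parts : ComplexEigenStatement → (∀ N, HeckeDescentStatement N) → QEigStatement`.
-/
import Fermat.Agent.H94.QEig.ComplexEigen

set_option autoImplicit false

noncomputable section

open AlgebraicCurve ModularCurve CongruenceSubgroup
open scoped MatrixGroups TensorProduct

namespace Fermat.Agent.H94.QEig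

/-- Transport of an eigenvector along a linear bijection intertwining two endomorphisms. -/
theorem exists_eigen_of_equiv {R : Type*} [CommRing R] (k : Type*) [Field k] [Algebra R k]
    {P Q : Type*} [AddCommGroup P] [Module R P] [AddCommGroup Q] [Module R Q]
    (Φ : P ≃ₗ[R] Q) {ι : Type*} (TP : ι → Module.End R P) (TQ : ι → Module.End R Q)
    (hΦ : ∀ i x, Φ (TP i x) = TQ i (Φ x)) (c : ι → k)
    (v' : k ⊗[R] Q) (hv' : v' ≠ 0) (hev : ∀ i, (TQ i).baseChange k v' = c i • v') :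
    ∃ v : k ⊗[R] P, v ≠ 0 ∧ ∀ i, (TP i).baseChange k v = c i • v := by
  refine ⟨(Φ.symm.toLinearMap.baseChange k) v', ?_, fun i => ?_⟩
  · intro h0
    apply hv'
    have h1 : (Φ.toLinearMap.baseChange k) ((Φ.symm.toLinearMap.baseChange k) v') = v' := by
      rw [← LinearMap.comp_apply, ← LinearMap.baseChange_comp]
      simp
    rw [← h1, h0, map_zero]
  · have h1 : (TP i) ∘ₗ Φ.symm.toLinearMap = Φ.symm.toLinearMap ∘ₗ (TQ i) := by
      ext y
      simp only [LinearMap.comp_apply, LinearEquiv.coe_coe]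
      apply Φ.injective
      rw [hΦ, LinearEquiv.apply_symm_apply, LinearEquiv.apply_symm_apply]
    rw [← LinearMap.comp_apply, ← LinearMap.baseChange_comp, h1, LinearMap.baseChange_comp,
      LinearMap.comp_apply, hev i, map_smul]

/-- An embedding of `ℚ̄` into `ℂ`. -/
def embQC : AlgebraicClosure ℚ →+* ℂ :=
  haveI : Algebra.IsAlgebraic ℚ (AlgebraicClosure ℚ) := AlgebraicClosure.isAlgebraic ℚ
  (IsAlgClosed.lift : AlgebraicClosure ℚ →ₐ[ℚ] ℂ).toRingHom

/-- A `ZMod n`-linear equivalence between torsion subgroups from an injective additive map which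
is onto the torsion. -/
theorem exists_torsion_linearEquiv {K F K' F' : Type*} [Field K] [Field F] [Algebra K F]
    [Field K'] [Field F'] [Algebra K' F'] (n : ℕ) (φd : Pic0 K F →+ Pic0 K' F')
    (hinj : Function.Injective φd)
    (hsurj : ∀ z : Pic0 K' F', z ∈ Pic0.torsion K' F' n →
      ∃ z₀ : Pic0 K F, z₀ ∈ Pic0.torsion K F n ∧ φd z₀ = z) :
    ∃ Φ : ↥(Pic0.torsion K F n) ≃ₗ[ZMod n] ↥(Pic0.torsion K' F' n),
      ∀ x : ↥(Pic0.torsion K F n), ((Φ x : ↥(Pic0.torsion K' F' n)) : Pic0 K' F')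
        = φd (x : Pic0 K F) := by
  let Φ₀ : ↥(Pic0.torsion K F n) →+ ↥(Pic0.torsion K' F' n) :=
    (φd.comp (Pic0.torsion K F n).subtype).codRestrict (Pic0.torsion K' F' n) (fun x => by
      have hx := x.2
      rw [Pic0.mem_torsion] at hx ⊢
      show (n : ℤ) • φd (x : Pic0 K F) = 0
      rw [← map_zsmul, hx, map_zero])
  have hΦ₀inj : Function.Injective Φ₀ := by
    intro x y hxy
    apply Subtype.ext
    apply hinj
    exact congrArg Subtype.val hxy
  have hΦ₀surj : Function.Surjective Φ₀ := by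
    intro z
    obtain ⟨z₀, hz₀, hz⟩ := hsurj z z.2
    exact ⟨⟨z₀, hz₀⟩, Subtype.ext hz⟩
  exact ⟨LinearEquiv.ofBijective (AddMonoidHom.toZModLinearMap n Φ₀) ⟨hΦ₀inj, hΦ₀surj⟩,
    fun x => rfl⟩

/-- **Q-EIG-D**. -/
theorem qEig_of_parts (hB : ComplexEigenStatement)
    (hD : ∀ (N : ℕ) [NeZero N], HeckeDescentStatement N) : QEigStatement := by
  intro N _ p hp
  have hp0 : 0 < p := hp.pos
  obtain ⟨φd, hφinj, hφsurj, hφT⟩ := hD N embQC
  obtain ⟨Φ, hΦ⟩ := exists_torsion_linearEquiv p φd hφinj (hφsurj p hp0)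
  have hfinC : Finite ↥(Pic0.torsion ℂ ↥(FC N) p) :=
    Fermat.Agent.H23.EsA.finite_torsion_pic0 N hp0
  refine ⟨Finite.of_injective Φ Φ.injective, fun g hg k _ _ φ => ?_⟩
  obtain ⟨v', hv', hev⟩ := hB N g hg p hp k φ
  let ι : Type := {ℓ : ℕ // ℓ.Prime ∧ ¬ ℓ ∣ N}
  choose a ha1 ha2 using fun i : ι => hev i.1 i.2.1 i.2.2
  have hΦT : ∀ (i : ι) (x : ↥(Pic0.torsion (AlgebraicClosure ℚ) ↥(modularFunctionFieldBar N) p)),
      Φ (heckeTors (AlgebraicClosure ℚ) N p i.1 x) = heckeTors ℂ N p i.1 (Φ x) := by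
    intro i x
    have : NeZero i.1 := ⟨i.2.1.ne_zero⟩
    apply Subtype.ext
    rw [hΦ, coe_heckeTors_apply, coe_heckeTors_apply, hφT i.1 i.2.1 i.2.2, hΦ]
  obtain ⟨v, hv0, hv⟩ := exists_eigen_of_equiv k Φ
    (fun i : ι => heckeTors (AlgebraicClosure ℚ) N p i.1) (fun i : ι => heckeTors ℂ N p i.1)
    hΦT (fun i => φ (a i)) v' hv' ha2
  exact ⟨v, hv0, fun ℓ hℓ hℓN => ⟨a ⟨ℓ, hℓ, hℓN⟩, ha1 ⟨ℓ, hℓ, hℓN⟩, hv ⟨ℓ, hℓ, hℓN⟩⟩⟩

end Fermat.Agent.H94.QEig

end
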