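/-
P-ES / Q-EIG (row 366, helper94): UNCONDITIONAL `QEigStatement`.

Assembled from
* Q-EIG-A  `Fermat.Agent.H85.eigenTensor`           (row 389),
* ES-C1    `Fermat.Agent.H49.heckeInputsStatement`  (row 330),
* ES-C2    `Fermat.Agent.H58.normRepStatement`, `Fermat.Agent.H35.kummerHecke_of_parts`
           (rows 331, 332),
* ES-C3    `Fermat.Agent.H21.EsC.cohEigenvector`    (row 337),
* Q-EIG-C  `Fermat.Agent.H39.heckeDescent`          (row 390),
* ES-B     `Fermat.Agent.H29.descentStatement`, `laurentInstanceStatement`,
           `correspondenceBCStatement`              (rows 344, 323, 351),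
* ES-A     `Fermat.Agent.H23.EsA.finite_torsion_pic0` (FINAL).
-/
import Fermat.Agent.H94.QEig.Final
import Fermat.Agent.H85.QEigTensor
import Fermat.Agent.H35.EsC.KummerHecke
import Fermat.Agent.H49.ES.EsCAdapters
import Fermat.Agent.H58.EsC.NormRepFinal
import Fermat.Agent.H21.EsC.EigenFinal
import Fermat.Agent.H39.QEigC
import Fermat.Agent.H29.ESB.HeckeFinal
import Fermat.Agent.H23.EsA.Unconditional

set_option autoImplicit false

noncomputable section

open AlgebraicCurve ModularCurve

namespace Fermat.Agent.H94.QEig

/-- **ES-C2, unconditional**: Hecke equivariance of the Kummer dictionary. -/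
theorem kummerHeckeStatement (N : ℕ) [NeZero N] : Fermat.Agent.H21.EsC.KummerHeckeStatement N :=
  Fermat.Agent.H35.kummerHecke_of_parts N (Fermat.Agent.H49.heckeInputsStatement ℂ)
    (Fermat.Agent.H58.normRepStatement N)

/-- **Q-EIG-B, unconditional.** -/
theorem complexEigen : ComplexEigenStatement :=
  complexEigen_of_parts Fermat.Agent.H85.eigenTensor (fun N _ => kummerHeckeStatement N)
    Fermat.Agent.H21.EsC.cohEigenvector

/-- **Q-EIG-C, unconditional.** -/
theorem heckeDescent (N : ℕ) [NeZero N] : HeckeDescentStatement N :=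
  Fermat.Agent.H39.heckeDescent N (fun M _ => Fermat.Agent.H29.descentStatement M)
    (fun M _ => Fermat.Agent.H29.laurentInstanceStatement M)
    Fermat.Agent.H29.correspondenceBCStatement
    (Fermat.Agent.H49.heckeInputsStatement (AlgebraicClosure ℚ))
    (Fermat.Agent.H49.heckeInputsStatement ℂ)
    (fun _ hm => Fermat.Agent.H23.EsA.finite_torsion_pic0 N hm)

/-- **Q-EIG, unconditional**: every normalised weight-2 eigenform of level `Γ₀(N)` has, for
every maximal ideal of `ℤ̄` over `p`, a non-zero simultaneous eigenvector in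
`k ⊗ J₀(N)(ℚ̄)[p]` for the prelude Hecke operators `T_ℓ` (`ℓ ∤ N p`) with eigenvalues the
reductions of the `a_ℓ`. -/
theorem qEig : QEigStatement :=
  qEig_of_parts complexEigen (fun N _ => heckeDescent N)

end Fermat.Agent.H94.QEig

end
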